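import Mathlib
import Fermat.Agent.H12.LL.LLmain
import Fermat.Agent.H02M.StT6

/-!
# Level lowering with auxiliary primes in the level
-/

set_option autoImplicit false
set_option linter.unusedSectionVars false
set_option linter.style.haveILetI false

noncomputable section

namespace Fermat.Agent.H12.LO

open Fermat.Agent.TC Fermat.Agent.TW Fermat.Agent.CC Fermat.Agent.H25.GE Fermat.Agent.H25.TR
open Fermat.Agent.Ell Fermat.Agent.H25 Fermat.Agent.H25.PR Fermat.Agent.H25.PT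
open Fermat.Agent.H22 Fermat.Agent.H12.LL
open IsLocalRing CongruenceSubgroup Matrix
open ModularFormClass (qCoeff)

/-- an auxiliary prime: the residual representation is unramified at `q` and the congruence for
raising the level at `q` does not hold -/
structure UnOk (W : WeierstrassCurve ℤ) (p q : ℕ) [hp : Fact p.Prime] : Prop where
  ne : q ≠ p
  unr : UnrAt W p q
  tr : ∀ A : ValuationSubring Qb, A.LiesOverPrime q → ∀ φ : GQ, A.IsFrobeniusAt φ q →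
    (PadicInt.toZMod (LinearMap.trace ℤ_[p] (TT (WQ W) p) (rr (WQ W) p φ))) ^ 2 ≠
      ((q : ZMod p) + 1) ^ 2

/-- The conditions on the level `N0` of the points. -/
def LvOk2 (p : ℕ) (b : Prop) (St Un : Finset Nat.Primes) (N0 : ℕ) : Prop :=
  LvOk p b St N0 ∧ ∀ q ∈ Un, ¬ (q : ℕ) ∣ N0

/-- The input in mode `b` at `p`, special at the primes of `St`, unramified at the primes of
`Un`. -/
def ModeIn2 (W : WeierstrassCurve ℤ) (p : ℕ) [hp : Fact p.Prime] (b : Prop)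
    (St Un : Finset Nat.Primes) : Prop :=
  ∀ (hΔ : W.Δ ≠ 0) (hirr : W.ModRepIsIrreducible p) (hp2 : p ≠ 2)
    (O : Type) [CommRing O] [IsDomain O] [IsDiscreteValuationRing O]
    [IsAdicComplete (maximalIdeal O) O] [Finite (ResidueField O)] [CharZero O] [Algebra ℤ_[p] O]
    [IsLocalHom (algebraMap ℤ_[p] O)]
    (K : Type) [Field K] [IsAlgClosed K] [Algebra O K] [FaithfulSMul O K]
    (ζ : ResidueField O), IsPrimitiveRoot ζ (p ^ 2 - 1) → ∀ (hpO : (p : O) ∈ maximalIdeal O)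
    (Ge : Geo p) (S T : Finset Nat.Primes), T ⊆ S → St ⊆ S → Un ⊆ S → (∀ q ∈ St, q ∉ T) →
    (∀ q ∈ Un, q ∉ T) → (∀ q : Nat.Primes, q ∉ S → UnrAt W p q) →
    (⟨p, hp.out⟩ : Nat.Primes) ∈ S → (∀ t ∈ T, (t : ℕ) ≠ p ∧ UnrAt W p t) →
    (∀ q ∈ St, StOk W p q) → (∀ q ∈ Un, UnOk W p q) →
    (∀ q ∈ S, q ∉ T → q ∉ St → q ∉ Un → (q : ℕ) ≠ p → ¬ UnrAt W p q) →
    TWData p S (RDW hΔ hirr hp2 O).rbar (chiB hΔ hirr hp2 O) →
    ∃ Pc : ∀ {S' : Finset Nat.Primes} {bad : Finset ℕ},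
        CData (RDW hΔ hirr hp2 O) S' bad → Prop,
      (∀ {S' : Finset Nat.Primes} {bad : Finset ℕ} (H : HIn (RDW hΔ hirr hp2 O) K p S' bad),
        (∀ x, LvOk2 p b St Un (H.np x).N0) →
        Pc (H.cd hpO Ge (RDW_isCyc hΔ hirr hp2) (RDW_hc hΔ hirr hp2))) ∧
      ∃ r : ℕ, ∀ n D₀ : ℕ, n ≠ 0 → D₀ ≠ 0 → ∃ qv : Fin r → Nat.Primes,
        Function.Injective qv ∧ (∀ j, ¬ (qv j : ℕ) ∣ D₀) ∧ (∀ j, qv j ∉ S) ∧
        (∀ j, TWData.IsTW p n (RDW hΔ hirr hp2 O).rbar (chiB hΔ hirr hp2 O) (qv j)) ∧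
        SelOut (RDW hΔ hirr hp2 O) p Pc S T r qv

section

variable {W : WeierstrassCurve ℤ} {p : ℕ} [hp : Fact p.Prime]
  {hΔ : W.Δ ≠ 0} {hirr : W.ModRepIsIrreducible p} {hp2 : p ≠ 2}
  {O : Type} [CommRing O] [IsDomain O] [IsDiscreteValuationRing O]
  [IsAdicComplete (maximalIdeal O) O] [Algebra ℤ_[p] O] [IsLocalHom (algebraMap ℤ_[p] O)]
  [Finite (ResidueField O)] [CharZero O] (I : FIn hΔ hirr hp2 O)
  (K : Type) [Field K] [IsAlgClosed K] [Algebra O K] [FaithfulSMul O K]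

/-- residual traces at a prime dividing the level of a point exactly once -/
theorem not_dvd_of_unOk {S' : Finset Nat.Primes} {bad : Finset ℕ} {K : Type} [Field K]
    [IsAlgClosed K] [Algebra O K] [FaithfulSMul O K]
    (hpO : (p : O) ∈ maximalIdeal O) (Ge : Geo p)
    (H : HIn (RDW hΔ hirr hp2 O) K p S' bad) (hbar : HBar (RDW hΔ hirr hp2 O) S')
    (x : H.X) {q : ℕ} (hq : q.Prime) (hU : UnOk W p q) (hqq : ¬ q * q ∣ (H.np x).N0) :
    ¬ q ∣ (H.np x).N0 := by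
  intro hqN
  haveI := charP_res p O
  obtain ⟨ι, hι, -⟩ := H25.St.exists_iota hpO Ge (RDW_isCyc hΔ hirr hp2) (RDW_hc hΔ hirr hp2) H
    hbar x
  have h1 := hin_sq hpO Ge (RDW_isCyc hΔ hirr hp2) (RDW_hc hΔ hirr hp2) H x hq hU.ne hqN hqq
    (plv_over q hq) (frv_spec q hq)
  have h2 : (H.rep hpO Ge x).ρ.trace (frv q hq) ^ 2 = ((q : (H.rep hpO Ge x).Q) + 1) ^ 2 := h1
  have h3 := congrArg (residue (H.rep hpO Ge x).Q) h2
  rw [map_pow, hι, map_pow, map_add, map_one, map_natCast, ← map_pow,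
    ← map_natCast ι, ← map_one ι, ← map_add, ← map_pow] at h3
  have h4 := ι.injective h3
  rw [RDW_tbar, ringHom_padic] at h4
  have h5 : ZMod.castHom (dvd_refl p) (ResidueField O)
      ((PadicInt.toZMod (LinearMap.trace ℤ_[p] (TT (WQ W) p) (rr (WQ W) p (frv q hq)))) ^ 2) =
      ZMod.castHom (dvd_refl p) (ResidueField O) (((q : ZMod p) + 1) ^ 2) := by
    rw [map_pow, h4, map_pow, map_add, map_one, map_natCast]
  exact hU.tr _ (plv_over q hq) _ (frv_spec q hq)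
    ((ZMod.castHom (dvd_refl p) (ResidueField O)).injective h5)

end

variable {W : WeierstrassCurve ℤ} {p : ℕ} [hp : Fact p.Prime]

/-- **Black box 1.** -/
theorem ll_gen2 {b : Prop} {St Un : Finset Nat.Primes} (hΔ : W.Δ ≠ 0)
    (hirr : W.ModRepIsIrreducible p) (hp2 : p ≠ 2)
    (Ge : Geo p) (hk : Kill W p) (hNL : NLIn W p) (hmode : ModeIn2 W p b St Un)
    (T : Finset Nat.Primes) (M₀ : ℕ) (h3 : p = 3 → ∃ q : ℕ, q.Prime ∧ q % 3 = 2 ∧ q ∣ M₀) (hsq : Squarefree M₀)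
    (hcop : Nat.Coprime (Q0 T) M₀) (hbF : ¬ b → ¬ p ∣ M₀)
    (hbT : b → NewP W p p ∧ ∃ M', M₀ = M' * p ∧ ¬ W.IsResiduallyModularOfLevel p (Q0 T * M'))
    (hSt : ∀ q ∈ St, StOk W p q ∧ NewP W p q ∧
      ∃ M', M₀ = M' * q ∧ ¬ W.IsResiduallyModularOfLevel p (Q0 T * M'))
    (hUn : ∀ q ∈ Un, UnOk W p q ∧ (q : ℕ) ∣ M₀)
    (hram : ∀ q : Nat.Primes, (q : ℕ) ≠ p → (q : ℕ) ∣ M₀ → q ∉ St → q ∉ Un → ¬ UnrAt W p q)
    (hTp : ∀ t ∈ T, (t : ℕ) ≠ p) (hT1 : ∀ t ∈ T, (t : ℕ) ≡ 1 [MOD p])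
    (hunr : ∀ t ∈ T, UnrAt W p t)
    (htr : ∀ t ∈ T, ∀ A : ValuationSubring Qb, A.LiesOverPrime (t : ℕ) → ∀ φ : GQ,
      A.IsFrobeniusAt φ t →
      (PadicInt.toZMod (LinearMap.trace ℤ_[p] (TT (WQ W) p) (rr (WQ W) p φ))) ^ 2 = 4)
    (hunrN : ∀ q : ℕ, q.Prime → q ≠ p → ¬ q ∣ Q0 T * M₀ → UnrAt W p q)
    (hRM : W.IsResiduallyModularOfLevel p (Q0 T * M₀)) : W.IsResiduallyModularOfLevel p M₀ := by
  classical
  haveI hM₀ : NeZero M₀ := ⟨hsq.ne_zero⟩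
  haveI hN0 : NeZero (Q0 T * M₀) := ⟨mul_ne_zero (Q0_pos T).ne' hsq.ne_zero⟩
  have hp0 := hp.out
  -- the coefficient ring
  obtain ⟨A, hA⟩ := exists_FrT hp.out T hT1
  have hpp : p ^ 2 - 1 ≠ 0 := by
    have h1 : 2 ≤ p := hp0.two_le
    have h2 : 4 ≤ p ^ 2 := by nlinarith
    omega
  have hm : p ^ A * (p ^ 2 - 1) ≠ 0 := mul_ne_zero (pow_ne_zero _ hp0.ne_zero) hpp
  obtain ⟨O, i1, i2, i3, i4, i5, i6, i7, i8, i9, hinj, ω, hω⟩ := exists_coeff p _ hm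
  obtain ⟨Q₁⟩ := hA O _ ω hω hm (dvd_mul_right _ _)
  have hpO : (p : O) ∈ maximalIdeal O := p_mem_maxO O
  have hω2 : IsPrimitiveRoot (ω ^ p ^ A) (p ^ 2 - 1) := hω.pow (Nat.pos_of_ne_zero hm) rfl
  have hu : IsUnit ((p ^ 2 - 1 : ℕ) : O) := by
    by_contra hnu
    have h1 : ((p ^ 2 - 1 : ℕ) : O) ∈ maximalIdeal O := (mem_maximalIdeal _).mpr hnu
    have h2 : ((p ^ 2 : ℕ) : O) ∈ maximalIdeal O := by
      rw [Nat.cast_pow, pow_two]
      exact Ideal.mul_mem_left _ _ hpO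
    have h3 : (1 : O) = ((p ^ 2 : ℕ) : O) - ((p ^ 2 - 1 : ℕ) : O) := by
      rw [← Nat.cast_sub (Nat.sub_le _ _)]
      have : p ^ 2 - (p ^ 2 - 1) = 1 := by omega
      rw [this, Nat.cast_one]
    have h4 : (1 : O) ∈ maximalIdeal O := by
      rw [h3]; exact sub_mem h2 h1
    exact (Ideal.ne_top_iff_one _).mp (maximalIdeal.isMaximal O).ne_top h4
  have hζ := isPrimitiveRoot_residue hu hω2
  let K := AlgebraicClosure (FractionRing O)
  haveI : FaithfulSMul O K := (faithfulSMul_iff_algebraMap_injective _ _).mpr (by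
    rw [IsScalarTower.algebraMap_eq O (FractionRing O) K]
    exact (algebraMap (FractionRing O) K).injective.comp (IsFractionRing.injective O _))
  -- the primes
  let S : Finset Nat.Primes := ((Q0 T * M₀ * p).primeFactors).subtype Nat.Prime
  have hS : ∀ q : Nat.Primes, q ∈ S ↔ (q : ℕ) ∣ Q0 T * M₀ * p := by
    intro q
    have h1 : q ∈ S ↔ (q : ℕ) ∈ (Q0 T * M₀ * p).primeFactors :=
      Finset.mem_subtype (p := Nat.Prime)
    rw [h1, Nat.mem_primeFactors]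
    exact ⟨fun h => h.2.1, fun h => ⟨q.2, h, mul_ne_zero (NeZero.ne _) hp0.ne_zero⟩⟩
  have hSunr : ∀ q : Nat.Primes, q ∉ S → UnrAt W p q := by
    intro q hq
    rw [hS] at hq
    exact hunrN q q.2 (fun h => hq (by rw [h]; exact dvd_mul_left _ _))
      (fun h => hq (h.mul_right p))
  have hTW : TWData p S (RDW hΔ hirr hp2 O).rbar (chiB hΔ hirr hp2 O) :=
    RDW_TWData hΔ hirr hp2 hSunr (hNL hΔ hirr hp2 O)
  have hTS : T ⊆ S := fun t ht => (hS t).mpr (((dvd_Q0 ht).mul_right _).mul_right _)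
  have hStM : ∀ q ∈ St, (q : ℕ) ∣ M₀ := fun q hq => by
    obtain ⟨-, -, M', h, -⟩ := hSt q hq
    exact ⟨M', by rw [h, mul_comm]⟩
  have hStT : ∀ q ∈ St, ¬ (q : ℕ) ∣ Q0 T := fun q hq h =>
    Nat.Prime.not_coprime_iff_dvd.mpr ⟨q, q.2, h, hStM q hq⟩ hcop
  have hUnT : ∀ q ∈ Un, ¬ (q : ℕ) ∣ Q0 T := fun q hq h =>
    Nat.Prime.not_coprime_iff_dvd.mpr ⟨q, q.2, h, (hUn q hq).2⟩ hcop
  -- the level of the residual system
  let D₀ : ℕ := p * W.Δ.natAbs * (Q0 T * M₀)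
  have hD₀ : D₀ ≠ 0 := mul_ne_zero (mul_ne_zero hp0.ne_zero (Int.natAbs_ne_zero.mpr hΔ))
    (NeZero.ne _)
  have hpD₀ : p ∣ D₀ := ⟨W.Δ.natAbs * (Q0 T * M₀), by rw [← mul_assoc]⟩
  have hΔD₀ : ∀ q : ℕ, q.Prime → (q : ℤ) ∣ W.Δ → q ∣ D₀ := by
    intro q _ h
    exact ((Int.natCast_dvd.mp h).mul_left p).mul_right _
  have hND : Q0 T * M₀ ∣ D₀ := dvd_mul_left _ _
  -- the Taylor-Wiles primes
  obtain ⟨Pc, hPc, r, hqv⟩ := hmode hΔ hirr hp2 O K _ hζ hpO Ge S T hTS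
    (fun q hq => (hS q).mpr (((hStM q hq).mul_left _).mul_right _))
    (fun q hq => (hS q).mpr ((((hUn q hq).2).mul_left _).mul_right _))
    (fun q hq hqT => hStT q hq (dvd_Q0 hqT)) (fun q hq hqT => hUnT q hq (dvd_Q0 hqT)) hSunr
    ((hS _).mpr (dvd_mul_left _ _)) (fun t ht => ⟨hTp t ht, hunr t ht⟩)
    (fun q hq => (hSt q hq).1) (fun q hq => (hUn q hq).1)
    (fun q hq hqT hqSt hqUn hqp => hram q hqp (by
      rcases (Nat.Prime.dvd_mul q.2).mp ((hS q).mp hq) with h | h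
      · rcases (Nat.Prime.dvd_mul q.2).mp h with h | h
        · exfalso
          obtain ⟨t, ht, htq⟩ := prime_dvd_Q0 q.2 h
          exact hqT (by rw [← Subtype.ext (a1 := t) (a2 := q) htq]; exact ht)
        · exact h
      · exact absurd ((Nat.prime_dvd_prime_iff_eq q.2 hp0).mp h) hqp) hqSt hqUn) hTW
  have hc : ∀ n : ℕ, ∃ c : TWCore p r, TWOk (O := O) hΔ hirr hp2 S D₀ n c ∧
      SelOut (RDW hΔ hirr hp2 O) p Pc S T r (fun j => ⟨c.q j, c.prime j⟩) := by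
    intro n
    obtain ⟨qv, h1, h2, h3, h4, h5⟩ := hqv (n + 1) D₀ (Nat.succ_ne_zero n) hD₀
    obtain ⟨c, hcq, hce, hcu⟩ := exists_TWCore hΔ hirr hp2 (n := n + 1)
      (fun j => (qv j : ℕ)) (fun i j hij => h1 (Subtype.ext hij)) h4
    have hq : ∀ j, (⟨c.q j, c.prime j⟩ : Nat.Primes) = qv j := fun j =>
      Subtype.ext (congrFun hcq j)
    refine ⟨c, ⟨fun j => (Nat.le_succ n).trans (hce j), fun j => ?_, fun j => ?_, fun j => ?_,
      fun j => ?_⟩, ?_⟩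
    · rw [hcq]; exact hcu j
    · rw [hcq]; exact h4 j
    · rw [hcq]; exact h2 j
    · rw [hq]; exact h3 j
    · have : (fun j => (⟨c.q j, c.prime j⟩ : Nat.Primes)) = qv := funext hq
      rw [this]; exact h5
  choose c hc1 hc2 using hc
  let I : FIn hΔ hirr hp2 O := ⟨S, hSunr, D₀, hD₀, hpD₀, hΔD₀, _, hζ, hk, hTW, Ge, r, c, hc1⟩
  have hne := ne_of_rm (O := O) hD₀ hpD₀ hΔD₀ hND hRM
  have hell : ∀ M : ℕ, (p = 3 → ∃ q : ℕ, q.Prime ∧ q % 3 = 2 ∧ q ∣ M) → Ell p M := by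
    intro M hM
    by_cases hp3 : p = 3
    · obtain ⟨q, h1, h2, h4⟩ := hM hp3
      exact Fermat.Agent.H24R.ell_of_dvd h1 h2 h4
    · exact Or.inl hp3
  have hsqN : Squarefree (Q0 T * M₀) :=
    (Nat.squarefree_mul_iff).mpr ⟨hcop, squarefree_Q0 T, hsq⟩
  have hnsq : ∀ q : ℕ, q.Prime → ¬ q * q ∣ Q0 T * M₀ := fun q hq h => hq.not_isUnit (hsqN q h)
  have hpT : ¬ p ∣ Q0 T := by
    intro h
    obtain ⟨t, ht, htp⟩ := prime_dvd_Q0 hp.out h
    exact hTp t ht htp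
  -- newness
  have hnew : ∀ (q : ℕ) (hq : q.Prime), NewP W p q → ¬ q ∣ Q0 T →
      (∃ M', M₀ = M' * q ∧ ¬ W.IsResiduallyModularOfLevel p (Q0 T * M')) → (p = 3 → q % 3 ≠ 2) →
      ∀ X : Cmp (I.F K), X.N = Q0 T * M₀ → X.Q₀ = Q0 T → ∀ χ n (x : (X.cd χ n).X),
        q ∣ X.lvl χ n x := by
    rintro q hq hNew hqT ⟨M', hM', hn⟩ hq3 X hX hQ χ n x
    have hM'0 : M' ≠ 0 := by
      rintro rfl
      rw [zero_mul] at hM'
      exact hsq.ne_zero hM'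
    haveI : NeZero (Q0 T * M') := ⟨mul_ne_zero (Q0_pos T).ne' hM'0⟩
    have hN : Q0 T * M₀ = (Q0 T * M') * q := by rw [hM', mul_assoc]
    refine hNew hΔ hirr hp2 O K I X χ n (Q0 T * M') (by rw [hX, hN]) ?_ (by rw [hQ]; exact hqT)
      (hell _ fun hp3 => ?_) ?_ x
    · intro h
      exact hnsq q hq (by rw [hN]; exact Nat.mul_dvd_mul_right h q)
    · obtain ⟨q', h4, h5, h6⟩ := h3 hp3
      rw [hM'] at h6
      rcases (Nat.Prime.dvd_mul h4).mp h6 with h7 | h7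
      · exact ⟨q', h4, h5, h7.mul_left _⟩
      · exfalso
        rw [(Nat.prime_dvd_prime_iff_eq h4 hq).mp h7] at h5
        exact hq3 hp3 h5
    · by_contra hne'
      exact hn (I.rm_of_ne n hND ⟨q, hN⟩ hne')
  obtain ⟨n, hn⟩ := I.core K Pc hpO Q₁ hc2 hsq hcop (fun X hX hQ χ n => by
      refine hPc (X.hin χ n) (fun x => ?_)
      obtain ⟨h5, h6⟩ := I.lvl_p K hTp (hnsq p hp0) X hX hQ χ n x
      refine ⟨⟨h5, fun hb => h6 (hbF hb), fun hb => ?_, fun q hq => ⟨?_, ?_⟩⟩, fun q hq => ?_⟩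
      · exact hnew p hp0 (hbT hb).1 hpT (hbT hb).2 (fun h => by omega) X hX hQ χ n x
      · refine hnew q q.2 (hSt q hq).2.1 (hStT q hq) (hSt q hq).2.2 (fun h h7 => ?_) X hX hQ χ n x
        have h8 := (hSt q hq).1.sq
        apply h8
        rw [h, Nat.ModEq, pow_two, Nat.mul_mod, h7]
      · refine X.not_sq_dvd χ n x q.2 (by rw [hQ]; exact hStT q hq) (by rw [hX]; exact hnsq q q.2)
          fun j h => ?_
        refine (I.hc n).nd j ?_
        rw [← h]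
        exact ((hStM q hq).mul_left _).trans hND
      · refine not_dvd_of_unOk hpO Ge (X.hin χ n) ((I.F K).hbar n) x q.2 (hUn q hq).1 ?_
        refine X.not_sq_dvd χ n x q.2 (by rw [hQ]; exact hUnT q hq) (by rw [hX]; exact hnsq q q.2)
          fun j h => ?_
        refine (I.hc n).nd j ?_
        rw [← h]
        exact (((hUn q hq).2).mul_left _).trans hND) hTp hunr htr hND hS
    (hell _ fun h => by
      obtain ⟨q, h4, h5, h6⟩ := h3 h
      exact ⟨q, h4, h5, h6.mul_left _⟩) (hell _ h3) hne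
  exact I.rm_of_ne n hND (dvd_mul_left _ _) hn


end Fermat.Agent.H12.LO
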