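import Mathlib
import Fermat.Agent.H12.LO.Main
import Fermat.Agent.H13.LL.ModeTrue
import Fermat.Agent.H19.UnrLoc

/-!
# The modes with auxiliary primes
-/

set_option autoImplicit false
set_option linter.unusedSectionVars false
set_option linter.style.haveILetI false

noncomputable section

namespace Fermat.Agent.H12.LO

open Fermat.Agent.TC Fermat.Agent.TW Fermat.Agent.CC Fermat.Agent.H25.GE Fermat.Agent.H25.TR
open Fermat.Agent.Ell Fermat.Agent.H25 Fermat.Agent.H25.PR Fermat.Agent.H25.PT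
open Fermat.Agent.H22 Fermat.Agent.H05 Fermat.Agent.H25.SB Fermat.Agent.H12.LL
open Fermat.Agent.H04 (DN M2)
open Fermat.Agent.H25.TWM Fermat.Agent.H25.GD
open IsLocalRing CongruenceSubgroup Matrix
open scoped Pointwise

variable {W : WeierstrassCurve ℤ} {p : ℕ} [hp : Fact p.Prime]

/-- local conditions are monotone -/
theorem LCond_mono {O : Type} [CommRing O] [IsLocalRing O] {A : ValuationSubring Qb}
    {rb : GQ →* Mt (ResidueField O)} {b : ℕ} {c c' : (GQ →* M2 (DN O)) → Prop}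
    (h : ∀ s, c' s → c s) (hc : SB.LCond A rb b c) : SB.LCond A rb b c' := by
  obtain ⟨L, h1, h2, h3⟩ := hc
  exact ⟨L, h1, h2, fun S' s hs hU htr hcs => h3 S' s hs hU htr (h s hcs)⟩

/-- the local conditions at the special and at the auxiliary primes -/
def CondU (O : Type) [CommRing O] [IsLocalRing O] (St Un : Finset Nat.Primes) (q : Nat.Primes)
    (s : GQ →* M2 (DN O)) : Prop :=
  (q ∈ St → H19.ST.StuckC q s) ∧ (q ∈ Un → H19.UR.UnrC q s)

section

variable (hΔ : W.Δ ≠ 0) (hirr : W.ModRepIsIrreducible p) (hp2 : p ≠ 2)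
  (O : Type) [CommRing O] [IsDomain O] [IsDiscreteValuationRing O]
  [IsAdicComplete (maximalIdeal O) O] [Finite (ResidueField O)] [Algebra ℤ_[p] O]
  [IsLocalHom (algebraMap ℤ_[p] O)]

theorem lcondU_RDW {S : Finset Nat.Primes} (hS : ∀ q : Nat.Primes, q ∉ S → UnrAt W p q)
    {St Un : Finset Nat.Primes} (hSt : ∀ q ∈ St, StOk W p q) (q : Nat.Primes)
    (hq : q ∈ St ∪ Un) :
    SB.LCond (plv q q.2) (RDW hΔ hirr hp2 O).rbar 0 (CondU O St Un q) := by
  haveI := charP_res p O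
  have hU : lev.isOpen (RDW hΔ hirr hp2 O).rbar.ker :=
    lev_isOpen_of_levS (RDW_open hΔ hirr hp2 hS)
  rcases Finset.mem_union.mp hq with h | h
  · exact LCond_mono (fun s hs => hs.1 h) (lstuck_RDW hΔ hirr hp2 O hS (hSt q h))
  · exact LCond_mono (fun s hs => hs.2 h) (H19.UR.lunr hU q)

end

/-- the conditions on the points at the special and at the auxiliary primes -/
def PcU {hΔ : W.Δ ≠ 0} {hirr : W.ModRepIsIrreducible p} {hp2 : p ≠ 2}
    {O : Type} [CommRing O] [IsDomain O] [IsDiscreteValuationRing O]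
    [IsAdicComplete (maximalIdeal O) O] [Finite (ResidueField O)] [Algebra ℤ_[p] O]
    [IsLocalHom (algebraMap ℤ_[p] O)] (St Un : Finset Nat.Primes)
    {S' : Finset Nat.Primes} {bad : Finset ℕ} (H : CData (RDW hΔ hirr hp2 O) S' bad) : Prop :=
  (∀ q ∈ St, ∀ x, H.t x (frv (q : ℕ) q.2) ^ 2 = (((q : ℕ) : H.P x) + 1) ^ 2) ∧
  ∀ q ∈ Un, ∀ x, ∀ τ ∈ (plv (q : ℕ) q.2).inertiaSubgroupIn ℚ, ∀ g, H.t x (τ * g) = H.t x g

section

variable {hΔ : W.Δ ≠ 0} {hirr : W.ModRepIsIrreducible p} {hp2 : p ≠ 2}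
  {O : Type} [CommRing O] [IsDomain O] [IsDiscreteValuationRing O]
  [IsAdicComplete (maximalIdeal O) O] [Algebra ℤ_[p] O] [IsLocalHom (algebraMap ℤ_[p] O)]
  [Finite (ResidueField O)] [CharZero O]

theorem pcU_cd {b : Prop} {St Un : Finset Nat.Primes} (hSt : ∀ q ∈ St, StOk W p q)
    (hUn : ∀ q ∈ Un, UnOk W p q)
    {K : Type} [Field K] [IsAlgClosed K] [Algebra O K] [FaithfulSMul O K]
    (hpO : (p : O) ∈ maximalIdeal O) (Ge : Geo p)
    {S' : Finset Nat.Primes} {bad : Finset ℕ} (H : HIn (RDW hΔ hirr hp2 O) K p S' bad)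
    (hH : ∀ x, LvOk2 p b St Un (H.np x).N0) :
    PcU St Un (H.cd hpO Ge (RDW_isCyc hΔ hirr hp2) (RDW_hc hΔ hirr hp2)) :=
  ⟨fun q hq x => hin_sq hpO Ge _ _ H x q.2 (hSt q hq).ne ((hH x).1.2.2.2 q hq).1
      ((hH x).1.2.2.2 q hq).2 (plv_over _ _) (frv_spec _ _),
    fun q hq x τ hτ g => hin_unr hpO Ge _ _ H x q.2 (hUn q hq).ne ((hH x).2 q hq)
      (plv_over _ _) hτ g⟩

theorem condU_of_pcU {St Un : Finset Nat.Primes} (hSt : ∀ q ∈ St, StOk W p q)
    {S' : Finset Nat.Primes} {bad : Finset ℕ} {κ : Type} [Finite κ] [Nonempty κ]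
    (H : κ → CData (RDW hΔ hirr hp2 O) S' bad) (hbar : HBar (RDW hΔ hirr hp2 O) S')
    (hP : ∀ i, PcU St Un (H i)) {d : AR H hbar → ResidueField O}
    (hd : IsDer O (CA H hbar).resB d) (q : Nat.Primes) :
    CondU O St Un q (sHom hd (CA H hbar).rho) := by
  haveI := charP_res p O
  exact ⟨fun hq => H19.ST.stuckC_sHom_of_sq H hbar hp.out hp2 q
      (sq_ne_one_res O (hSt q hq).sq) (fun i x => (hP i).1 q hq x) hd,
    fun hq => H19.UR.unrC_sHom H hbar q (fun i x τ hτ g => (hP i).2 q hq x τ hτ g) hd⟩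

end

open scoped Classical in
/-- **the flat mode** -/
theorem modeIn2_false (hGW : SB.GWad p) (W : WeierstrassCurve ℤ) (St Un : Finset Nat.Primes) :
    ModeIn2 W p False St Un := by
  intro hΔ hirr hp2 O _ _ _ _ _ _ _ _ K _ _ _ _ ζ hζ hpO Ge S T hTS hStS hUnS hStT hUnT hSunr
    hpS hT hStOk hUnOk hram hTW
  haveI := charP_res p O
  refine ⟨fun {S'} {bad} H => (∀ hbar : HBar (RDW hΔ hirr hp2 O) S', FlT p O (H.C hbar).t) ∧
      PcU St Un H,
    fun H hH => ⟨fun hbar => H.flT_cd hpO Ge _ _ hbar fun x => (hH x).1.2.1 id,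
      pcU_cd hStOk hUnOk hpO Ge H hH⟩, ?_⟩
  obtain ⟨r, hr⟩ := SB.exists_SelB_modes (D := RDW hΔ hirr hp2 O) hGW hp2
    (χ := chiB hΔ hirr hp2 O) (S := S) (T := T) (U := St ∪ Un) (pp := ⟨p, hp.out⟩) rfl hpS
    (fun h => (hT _ h).1 rfl) (fun h => (Finset.mem_union.mp h).elim
      (fun h => (hStOk _ h).ne rfl) (fun h => (hUnOk _ h).ne rfl)) hTS
    (Finset.union_subset hStS hUnS)
    (Finset.disjoint_right.mpr fun q hq => (Finset.mem_union.mp hq).elim (hStT q) (hUnT q)) hTW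
    (fun q hq hqT hqU hqp => RDW_ram hΔ hirr hp2 O
      (hram q hq hqT (fun h => hqU (Finset.mem_union_left _ h))
        (fun h => hqU (Finset.mem_union_right _ h)) fun h => hqp (Subtype.ext h)))
    (RDW_isCyc hΔ hirr hp2) hpO (lev_isOpen_of_levS (RDW_open hΔ hirr hp2 hSunr))
    (condU := CondU O St Un) (fun q hq => lcondU_RDW hΔ hirr hp2 O hSunr hStOk q hq)
  refine ⟨r, fun n D₀ hn hD₀ => ?_⟩
  obtain ⟨qv, h1, h2, h3⟩ := hr n D₀.primeFactors
  refine ⟨qv, h1, fun j h => (h2 j).1 (Nat.mem_primeFactors.mpr ⟨(qv j).2, h, hD₀⟩),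
    fun j => (h2 j).2.1, fun j => (h2 j).2.2, ?_⟩
  intro κ _ _ bad H hbar hPc hun
  exact (h3 _ (by congr) κ bad H hbar (fun q hq hqT _ hqp i x τ hτ =>
      hun i x q hq hqT (fun h => hqp (Subtype.ext h)) _ (plv_over _ _) τ hτ)
    (fun d hd q _ => condU_of_pcU hStOk H hbar (fun i => (hPc i).2) hd q)).1
    (lflat_RDW hΔ hirr hp2 O hζ hSunr (plv_over _ _)) (fun i => (hPc i).1 hbar)

open scoped Classical in
/-- **the strict mode** (multiplicative reduction at `p`) -/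
theorem modeIn2_true (hGW : SB.GWad p) (hpΔ : (p : ℤ) ∣ W.Δ) (hc₄ : ¬ (p : ℤ) ∣ W.c₄)
    (Sst Sun : Finset Nat.Primes) : ModeIn2 W p True Sst Sun := by
  intro hΔ hirr hp2 O _ _ _ _ _ _ _ _ K _ _ _ _ ζ hζ hpO Ge S T hTS hStS hUnS hStT hUnT hSunr
    hpS hT hStOk hUnOk hram hTW
  haveI := charP_res p O
  have hA : (plv p hp.out).LiesOverPrime p := plv_over _ _
  obtain ⟨psi, ho, -⟩ := Fermat.Agent.H25.St.exists_ordD_RDW hΔ hirr hp2 O hpΔ hc₄ hA
  have hchi := RDW_isCyc hΔ hirr hp2 (O := O)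
  refine ⟨fun {S'} {bad} H => (HBar (RDW hΔ hirr hp2 O) S' →
      ∀ x, Fermat.Agent.H25.St.StT (plv p hp.out) (RDW hΔ hirr hp2 O).chi psi (H.t x)) ∧
      PcU Sst Sun H,
    fun H hH => ⟨fun hbar x => Fermat.Agent.H25.St.stT_pt hpO Ge _ _ H hbar hp2 x
        ⟨(hH x).1.2.2.1 trivial, by rw [pow_two]; exact (hH x).1.1⟩ hA ho
        (Fermat.Agent.H25.St.exists_inertia_ne (O := O) hp.out hp2 hA hchi),
      pcU_cd hStOk hUnOk hpO Ge H hH⟩, ?_⟩
  obtain ⟨r, hr⟩ := SB.exists_SelB_modes (D := RDW hΔ hirr hp2 O) hGW hp2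
    (χ := chiB hΔ hirr hp2 O) (S := S) (T := T) (U := Sst ∪ Sun) (pp := ⟨p, hp.out⟩) rfl hpS
    (fun h => (hT _ h).1 rfl) (fun h => (Finset.mem_union.mp h).elim
      (fun h => (hStOk _ h).ne rfl) (fun h => (hUnOk _ h).ne rfl)) hTS
    (Finset.union_subset hStS hUnS)
    (Finset.disjoint_right.mpr fun q hq => (Finset.mem_union.mp hq).elim (hStT q) (hUnT q)) hTW
    (fun q hq hqT hqU hqp => RDW_ram hΔ hirr hp2 O
      (hram q hq hqT (fun h => hqU (Finset.mem_union_left _ h))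
        (fun h => hqU (Finset.mem_union_right _ h)) fun h => hqp (Subtype.ext h))) hchi hpO
    (lev_isOpen_of_levS (RDW_open hΔ hirr hp2 hSunr))
    (condU := CondU O Sst Sun) (fun q hq => lcondU_RDW hΔ hirr hp2 O hSunr hStOk q hq)
  refine ⟨r, fun n D₀ hn hD₀ => ?_⟩
  obtain ⟨qv, h1, h2, h3⟩ := hr n D₀.primeFactors
  refine ⟨qv, h1, fun j h => (h2 j).1 (Nat.mem_primeFactors.mpr ⟨(qv j).2, h, hD₀⟩),
    fun j => (h2 j).2.1, fun j => (h2 j).2.2, ?_⟩
  intro κ _ _ bad H hbar hPc hun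
  exact (h3 _ (by congr) κ bad H hbar (fun q hq hqT _ hqp i x τ hτ =>
      hun i x q hq hqT (fun h => hqp (Subtype.ext h)) _ (plv_over _ _) τ hτ)
    (fun d hd q _ => condU_of_pcU hStOk H hbar (fun i => (hPc i).2) hd q)).2.1
    (fun d hd => Fermat.Agent.H25.St.strict_cond H hbar hp2 hchi hA ho
      (fun i x => (hPc i).1 hbar x) d hd)

end Fermat.Agent.H12.LO
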