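import Mathlib
import Fermat.Agent.H12.LO.Modes
import Fermat.Agent.H19.LLp2
import Fermat.Agent.H24R.AuxPrime
import Fermat.Agent.H25.GeoPf
import Fermat.Agent.H18O.StepU

/-!
# The level lowering input at arbitrary levels (`p = 3` included)
-/

set_option autoImplicit false
set_option linter.unusedSectionVars false
set_option linter.style.haveILetI false

noncomputable section

namespace Fermat.Agent.H12.LO

open Fermat.Agent.TW Fermat.Agent.CC Fermat.Agent.Ell Fermat.Agent.H12.LL Fermat.Agent.TFin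
open Fermat.Agent.H19.LLp Fermat.Agent.H25 Fermat.Agent.H25.PR Fermat.Agent.H25.TR
open Fermat.Agent.H05
open IsLocalRing CongruenceSubgroup
open ModularFormClass (qCoeff)

variable {W : WeierstrassCurve ℤ} {p : ℕ} [hp : Fact p.Prime]

/-- an auxiliary prime can be removed from the level -/
theorem drop_aux (hΔ : W.Δ ≠ 0) (hirr : W.ModRepIsIrreducible p) (G : H25.PT.Geo p) {N q : ℕ}
    (hq : q.Prime) (hN : N ≠ 0) (hqN : ¬ q ∣ N) (hU : UnOk W p q)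
    (hRM : W.IsResiduallyModularOfLevel p (N * q)) : W.IsResiduallyModularOfLevel p N := by
  haveI := H51.isGalois_Qbar
  obtain ⟨L, hL, g, 𝔪, hLM, hg, h𝔪, hp𝔪, hx, hRL⟩ := H18R.exists_newform_level hΔ hirr
    (mul_ne_zero hN hq.ne_zero) hRM
  have hqL2 : ¬ q ^ 2 ∣ L := by
    intro h
    rw [pow_two] at h
    exact hqN (Nat.dvd_of_mul_dvd_mul_right hq.pos (h.trans hLM))
  have hqL : ¬ q ∣ L := by
    intro hqL
    obtain ⟨A, hA⟩ := exists_liesOverPrime (AlgebraicClosure ℚ) hq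
    obtain ⟨φ, hφ⟩ := H05.exists_isFrobeniusAt (L := AlgebraicClosure ℚ) hq hA
    exact hU.tr A hA φ hφ (H18R.sq_of_geo hΔ hirr G hg ⟨𝔪, h𝔪, hp𝔪, hx⟩ hq hU.ne hqL hqL2 hA hφ)
  refine H18R.isResiduallyModular_mono hΔ hirr hRL ?_ hN
  exact Nat.Coprime.dvd_of_dvd_mul_right (((Nat.Prime.coprime_iff_not_dvd hq).mpr hqL).symm) hLM

/-- **Black box 1 at arbitrary levels.** -/
def LLpropO (W : WeierstrassCurve ℤ) (p : ℕ) [Fact p.Prime] (b : Prop) : Prop :=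
  ∀ (T : Finset Nat.Primes) (M₀ : ℕ), Squarefree M₀ →
    Nat.Coprime (Q0 T) M₀ → (p ∣ M₀ ↔ b) →
    (p ∣ M₀ → ¬ W.IsResiduallyModularOfLevel p (Q0 T * (M₀ / p))) →
    (∀ q : ℕ, q.Prime → q ≠ p → q ∣ M₀ → ¬ UnrAt W p q ∨
      (¬ q ^ 2 ≡ 1 [MOD p] ∧ ¬ W.IsResiduallyModularOfLevel p (Q0 T * (M₀ / q)))) →
    (∀ t ∈ T, (t : ℕ) ≠ p) → (∀ t ∈ T, (t : ℕ) ≡ 1 [MOD p]) → (∀ t ∈ T, UnrAt W p t) →
    (∀ t ∈ T, ∀ A : ValuationSubring Qb, A.LiesOverPrime (t : ℕ) → ∀ φ : GQ,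
      A.IsFrobeniusAt φ t →
      (PadicInt.toZMod (LinearMap.trace ℤ_[p] (TT (WQ W) p) (rr (WQ W) p φ))) ^ 2 = 4) →
    W.IsResiduallyModularOfLevel p (Q0 T * M₀) → W.IsResiduallyModularOfLevel p M₀

open Classical in
/-- level lowering with an auxiliary prime -/
theorem llprop_aux (hΔ : W.Δ ≠ 0) (hirr : W.ModRepIsIrreducible p) (hp2 : p ≠ 2)
    (G : H25.PT.Geo p) (hk : Kill W p) (hNL : NLIn W p)
    (hNew : ∀ q : ℕ, q.Prime → NewP W p q) {b : Prop}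
    (hMode : ∀ St Un : Finset Nat.Primes, ModeIn2 W p b St Un)
    (hex : ∀ F : Finset ℕ, ∃ r : Nat.Primes, (r : ℕ) ∉ F ∧ (p = 3 → (r : ℕ) % 3 = 2) ∧
      UnOk W p r) : LLpropO W p b := by
  intro T M₀ hsq hcop hb hpn hq hTp hT1 hTu htr hRM
  obtain ⟨r, hrF, hr3, hr⟩ := hex (Q0 T * M₀ * p).primeFactors
  have hrN : ¬ (r : ℕ) ∣ Q0 T * M₀ * p := fun h => hrF (Nat.mem_primeFactors.mpr ⟨r.2, h,
    mul_ne_zero (mul_ne_zero (Q0_pos T).ne' hsq.ne_zero) hp.out.ne_zero⟩)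
  have hrT : ¬ (r : ℕ) ∣ Q0 T := fun h => hrN ((h.mul_right _).mul_right _)
  have hrM : ¬ (r : ℕ) ∣ M₀ := fun h => hrN ((h.mul_left _).mul_right _)
  have hrTM : ¬ (r : ℕ) ∣ Q0 T * M₀ := fun h => hrN (h.mul_right _)
  have hcopr : Nat.Coprime M₀ (r : ℕ) :=
    ((Nat.Prime.coprime_iff_not_dvd r.2).mpr hrM).symm
  have hsq1 : Squarefree (M₀ * r) :=
    (Nat.squarefree_mul_iff).mpr ⟨hcopr, hsq, r.2.prime.squarefree⟩
  have hcop1 : Nat.Coprime (Q0 T) (M₀ * r) :=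
    Nat.Coprime.mul_right hcop ((Nat.Prime.coprime_iff_not_dvd r.2).mpr hrT).symm
  have hsqN : Squarefree (Q0 T * M₀) :=
    (Nat.squarefree_mul_iff).mpr ⟨hcop, squarefree_Q0 T, hsq⟩
  have hsqN1 : Squarefree (Q0 T * (M₀ * r)) :=
    (Nat.squarefree_mul_iff).mpr ⟨hcop1, squarefree_Q0 T, hsq1⟩
  have hRM1 : W.IsResiduallyModularOfLevel p (Q0 T * (M₀ * r)) :=
    H18R.isResiduallyModular_mono hΔ hirr hRM ⟨r, by ring⟩ hsqN1.ne_zero
  -- removing the auxiliary prime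
  have hdrop : ∀ M' : ℕ, M' ∣ M₀ → ¬ W.IsResiduallyModularOfLevel p (Q0 T * M') →
      ¬ W.IsResiduallyModularOfLevel p (Q0 T * (M' * r)) := by
    intro M' hM' hn h
    refine hn (drop_aux hΔ hirr G r.2 (fun h0 => ?_) (fun h0 => hrTM (h0.trans
      (Nat.mul_dvd_mul_left _ hM'))) hr (by rw [mul_assoc]; exact h))
    have h1 : Q0 T * M' ∣ Q0 T * M₀ := Nat.mul_dvd_mul_left _ hM'
    rw [h0] at h1
    exact hsqN.ne_zero (Nat.eq_zero_of_zero_dvd h1)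
  have hdiv : ∀ q : ℕ, q ∣ M₀ → M₀ * r = (M₀ / q * r) * q := fun q h => by
    rw [mul_right_comm, Nat.div_mul_cancel h]
  have hQ : ∀ q : ℕ, q ∣ M₀ → Q0 T * M₀ = (Q0 T * (M₀ / q)) * q := fun q h => by
    rw [mul_assoc, Nat.div_mul_cancel h]
  have hpr : ¬ p ∣ (r : ℕ) := fun h =>
    hr.ne ((Nat.prime_dvd_prime_iff_eq hp.out r.2).mp h).symm
  let St : Finset Nat.Primes := ((M₀.primeFactors).subtype Nat.Prime).filter
    (fun q => (q : ℕ) ≠ p ∧ UnrAt W p q)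
  have hSt : ∀ q : Nat.Primes, q ∈ St ↔ (q : ℕ) ∣ M₀ ∧ (q : ℕ) ≠ p ∧ UnrAt W p q := by
    intro q
    have h1 : q ∈ St ↔ q ∈ (M₀.primeFactors.subtype Nat.Prime : Finset Nat.Primes) ∧
        ((q : ℕ) ≠ p ∧ UnrAt W p q) := Finset.mem_filter
    have h2 : q ∈ (M₀.primeFactors.subtype Nat.Prime : Finset Nat.Primes) ↔
        (q : ℕ) ∈ M₀.primeFactors := Finset.mem_subtype (p := Nat.Prime)
    rw [h1, h2, Nat.mem_primeFactors]
    exact ⟨fun h => ⟨h.1.2.1, h.2⟩, fun h => ⟨⟨q.2, h.1, hsq.ne_zero⟩, h.2⟩⟩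
  have hfin : W.IsResiduallyModularOfLevel p (M₀ * r) := by
    refine ll_gen2 hΔ hirr hp2 G hk hNL (hMode St {r}) T (M₀ * r)
      (fun hp3 => ⟨r, r.2, hr3 hp3, dvd_mul_left _ _⟩) hsq1 hcop1
      (fun hnb h => ?_) (fun hb' => ⟨hNew p hp.out, M₀ / p * r, hdiv p (hb.mpr hb'),
        hdrop _ (Nat.div_dvd_of_dvd (hb.mpr hb')) (hpn (hb.mpr hb'))⟩) (fun q hqS => ?_)
      (fun q hqU => ?_) (fun q hqp hqM hqS hqU => ?_) hTp hT1 hTu htr
      (fun q hq' hqp hqN => H11N.unrAt_of_residual hΔ hirr hp2 hsqN.ne_zero hRM hq'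
        (fun h => hqN (h.trans ⟨r, by ring⟩)) hqp) hRM1
    · rcases (Nat.Prime.dvd_mul hp.out).mp h with h | h
      · exact hnb (hb.mp h)
      · exact hpr h
    · obtain ⟨h1, h2, h4⟩ := (hSt q).mp hqS
      rcases hq q q.2 h2 h1 with h5 | ⟨h5, h6⟩
      · exact absurd h4 h5
      · exact ⟨stOk_of hΔ hirr G q.2 h2 h4 h5 (by rw [← hQ q h1]; exact hsqN)
          (by rw [← hQ q h1]; exact hRM) h6, hNew q q.2, M₀ / q * r, hdiv q h1,
          hdrop _ (Nat.div_dvd_of_dvd h1) h6⟩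
    · rw [Finset.mem_singleton] at hqU
      rw [hqU]
      exact ⟨hr, dvd_mul_left _ _⟩
    · intro h
      rcases (Nat.Prime.dvd_mul q.2).mp hqM with h1 | h1
      · exact hqS ((hSt q).mpr ⟨h1, hqp, h⟩)
      · exact hqU (Finset.mem_singleton.mpr
          (Subtype.ext ((Nat.prime_dvd_prime_iff_eq q.2 r.2).mp h1)))
  exact drop_aux hΔ hirr G r.2 hsq.ne_zero hrM hr hfin

/-- existence of auxiliary primes for `p = 3` -/
theorem exists_unOk_three {W : WeierstrassCurve ℤ} [Fact (Nat.Prime 3)] (hΔ : W.Δ ≠ 0)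
    (hss : W.IsSemistableModel) (hirr : W.ModRepIsIrreducible 3) (F : Finset ℕ) :
    ∃ r : Nat.Primes, (r : ℕ) ∉ F ∧ (r : ℕ) % 3 = 2 ∧ UnOk W 3 r := by
  classical
  obtain ⟨O, i1, i2, i3, i4, i5, i6, i7, i8, i9, hinj, ω, hω⟩ := exists_coeff 3 1 one_ne_zero
  haveI := charP_res 3 O
  have hp2 : (3 : ℕ) ≠ 2 := by norm_num
  let S : Finset Nat.Primes := ((3 * W.Δ.natAbs).primeFactors).subtype Nat.Prime
  have h3Δ : 3 * W.Δ.natAbs ≠ 0 := mul_ne_zero (by norm_num) (Int.natAbs_ne_zero.mpr hΔ)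
  have hS : ∀ q : Nat.Primes, q ∈ S ↔ (q : ℕ) ∣ 3 * W.Δ.natAbs := by
    intro q
    have h1 : q ∈ S ↔ (q : ℕ) ∈ (3 * W.Δ.natAbs).primeFactors :=
      Finset.mem_subtype (p := Nat.Prime)
    rw [h1, Nat.mem_primeFactors]
    exact ⟨fun h => h.2.1, fun h => ⟨q.2, h, h3Δ⟩⟩
  have hgood : ∀ q : ℕ, q.Prime → ¬ q ∣ 3 * W.Δ.natAbs → UnrAt W 3 q ∧ q ≠ 3 := by
    intro q hq h
    have hq3 : q ≠ 3 := fun h' => h (by rw [h']; exact dvd_mul_right _ _)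
    refine ⟨unrAt_of_good hq (fun h' => h ((Int.natCast_dvd.mp h').mul_left _)) fun h' => ?_, hq3⟩
    exact hq3 ((Nat.prime_dvd_prime_iff_eq hq Nat.prime_three).mp h')
  have hTW : TWData 3 S (RDW hΔ hirr hp2 O).rbar (chiB hΔ hirr hp2 O) :=
    RDW_TWData hΔ hirr hp2 (fun q hq => (hgood q q.2 (fun h => hq ((hS q).mpr h))).1)
      (nLIn_of_semistable hss hΔ hirr hp2 O)
  obtain ⟨q, hq, hqT, hq2, hA⟩ := Fermat.Agent.H24R.exists_aux' hTW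
    (F ∪ (3 * W.Δ.natAbs).primeFactors)
    (Finset.mem_union_right _ (Nat.mem_primeFactors.mpr
      ⟨Nat.prime_three, dvd_mul_right _ _, h3Δ⟩))
    (fun q hq => Finset.mem_union_right _ (Nat.mem_primeFactors.mpr ⟨q.2, (hS q).mp hq, h3Δ⟩))
  have hqΔ : ¬ q ∣ 3 * W.Δ.natAbs := fun h =>
    hqT (Finset.mem_union_right _ (Nat.mem_primeFactors.mpr ⟨hq, h, h3Δ⟩))
  obtain ⟨h1, h2⟩ := hgood q hq hqΔ
  refine ⟨⟨q, hq⟩, fun h => hqT (Finset.mem_union_left _ h), hq2, ⟨h2, h1, fun A hA' φ hφ h => ?_⟩⟩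
  apply (hA A hA' φ hφ).2
  have h3 := congrArg (ZMod.castHom (dvd_refl 3) (ResidueField O)) h
  rw [map_pow, map_pow, map_add, map_one, map_natCast] at h3
  rw [RD.trace_rbar, RDW_tbar, ringHom_padic (p := 3) (redk 3 O)]
  exact h3

/-- **Black box 1 at arbitrary levels, `p = 3`.** -/
theorem llpropO_three {W : WeierstrassCurve ℤ} [Fact (Nat.Prime 3)] (hΔ : W.Δ ≠ 0)
    (hss : W.IsSemistableModel) (hirr : W.ModRepIsIrreducible 3) {b : Prop}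
    (hMode : ∀ St Un : Finset Nat.Primes, ModeIn2 W 3 b St Un) : LLpropO W 3 b :=
  have G := H25.PT.geo_all Nat.prime_three
  llprop_aux hΔ hirr (by norm_num) G (kill hΔ hirr G) (nLIn_of_semistable hss)
    (fun _ hq => newP W 3 hq) hMode (fun F => by
      obtain ⟨r, h1, h2, h3⟩ := exists_unOk_three hΔ hss hirr F
      exact ⟨r, h1, fun _ => h2, h3⟩)

/-- **Black box 1 at arbitrary levels, `p ≠ 3`.** -/
theorem llpropO_of_ne {b : Prop} (hΔ : W.Δ ≠ 0) (hss : W.IsSemistableModel)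
    (hirr : W.ModRepIsIrreducible p) (hp2 : p ≠ 2) (hp3 : p ≠ 3)
    (hmode : ∀ St : Finset Nat.Primes, ModeIn W p b St) : LLpropO W p b :=
  fun T M₀ hsq hcop hb hpn hq hTp hT1 hTu htr hRM =>
    llprop hΔ hss hirr hp2 (H25.PT.geo_all hp.out) hmode T M₀ (Or.inl hp3) hsq hcop hb hpn hq
      hTp hT1 hTu htr hRM

/-- the uniform version of `StepU` -/
theorem LLpropO.llU {b : Prop} (h : LLpropO W p b) : H18O.LLU W p b :=
  fun T M₀ hsq hcop hb hpn hq hTp hT1 hTu htr hRM =>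
    h T M₀ hsq hcop hb hpn (fun q h1 h2 h3 => Or.inl (hq q h1 h2 h3)) hTp hT1 hTu htr hRM

end Fermat.Agent.H12.LO
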