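import Mathlib
import Fermat.Agent.H12.LO.LLp
import Fermat.Agent.H13.LL.ModeFalse
import Fermat.Agent.CFT.EC.GW
import Fermat.Agent.H25.SelH

/-!
# The level lowering input at arbitrary levels, in all modes
-/

set_option autoImplicit false
set_option linter.unusedSectionVars false

noncomputable section

namespace Fermat.Agent.H12.LO

open Fermat.Agent.TW Fermat.Agent.CC Fermat.Agent.Ell Fermat.Agent.H12.LL Fermat.Agent.TFin
open Fermat.Agent.H25 Fermat.Agent.H25.PT Fermat.Agent.H25.SB
open IsLocalRing CongruenceSubgroup WeierstrassCurve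

variable {W : WeierstrassCurve ℤ} {p : ℕ} [hp : Fact p.Prime]

/-- the modes with special and auxiliary primes -/
theorem modeIn2_of (hss : W.IsSemistableModel) (hp2 : p ≠ 2) {b : Prop}
    (hb : b → (p : ℤ) ∣ W.Δ) (St Un : Finset Nat.Primes) : ModeIn2 W p b St Un := by
  have hGW : GWad p := gwad hp2 (CFT.EC.gw hp2)
  by_cases hM : b
  · rw [eq_true hM]
    exact modeIn2_true hGW (hb hM) (hss p hp.out (hb hM)) St Un
  · rw [eq_false hM]
    exact modeIn2_false hGW W St Un

/-- **Black box 1 at arbitrary levels**: every odd prime `p`, every mode `b`. -/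
theorem llpropO (hΔ : W.Δ ≠ 0) (hss : W.IsSemistableModel) (hirr : W.ModRepIsIrreducible p)
    (hp2 : p ≠ 2) {b : Prop} (hb : b → (p : ℤ) ∣ W.Δ) : LLpropO W p b := by
  by_cases hp3 : p = 3
  · subst hp3
    exact llpropO_three hΔ hss hirr (modeIn2_of hss hp2 hb)
  · refine llpropO_of_ne hΔ hss hirr hp2 hp3 fun St => ?_
    have hGW : GWad p := gwad hp2 (CFT.EC.gw hp2)
    by_cases hM : b
    · rw [eq_true hM]
      exact modeIn_true hGW (hb hM) (hss p hp.out (hb hM)) St
    · rw [eq_false hM]
      exact modeIn_false hGW W St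

/-- **Black box 1 at arbitrary levels**, in the form used by `StepU`. -/
theorem llU (hΔ : W.Δ ≠ 0) (hss : W.IsSemistableModel) (hirr : W.ModRepIsIrreducible p)
    (hp2 : p ≠ 2) {b : Prop} (hb : b → (p : ℤ) ∣ W.Δ) : H18O.LLU W p b :=
  (llpropO hΔ hss hirr hp2 hb).llU

end Fermat.Agent.H12.LO
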